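/-
S26 / Sch / LB / Sec : sections of the structure sheaf of `Spec S` as `S`-modules (see `LB/Defs.lean`).

-/
import Mathlib

set_option autoImplicit false

open CategoryTheory AlgebraicGeometry Opposite

universe u

namespace Fermat.Agent.S26

/-- restriction of sections -/
noncomputable abbrev rs {T : Scheme.{u}} {U V : T.Opens} (h : V ≤ U) : Γ(T, U) →+* Γ(T, V) :=
  (T.presheaf.map (homOfLE h).op).hom

/-- pull back of sections -/
noncomputable abbrev pb {T X : Scheme.{u}} (u : T ⟶ X) (U : X.Opens) (V : T.Opens) (h : V ≤ u ⁻¹ᵁ U) :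
    Γ(X, U) →+* Γ(T, V) := (u.appLE U V h).hom

theorem pre_mono {T X : Scheme.{u}} (u : T ⟶ X) {U V : X.Opens} (h : U ≤ V) : u ⁻¹ᵁ U ≤ u ⁻¹ᵁ V :=
  fun _ hx => h hx

section spec

variable (S : Type u) [CommRing S]

/-- `Spec S` -/
noncomputable abbrev Sp : Scheme.{u} := Spec (CommRingCat.of S)

/-- `S → Γ(Spec S, W)` -/
noncomputable def toSec (W : (Sp S).Opens) : S →+* Γ(Sp S, W) :=
  (rs (le_top : W ≤ ⊤)).comp (Scheme.ΓSpecIso (CommRingCat.of S)).inv.hom

/-- `Γ(Spec S, W)` as an `S`-module -/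
noncomputable instance secModule (W : (Sp S).Opens) : Module S Γ(Sp S, W) :=
  Module.compHom _ (toSec S W)

variable {S}

theorem smul_sec_def {W : (Sp S).Opens} (s : S) (x : Γ(Sp S, W)) : s • x = toSec S W s * x := rfl

theorem sec_rs_rs {T : Scheme.{u}} {U V W : T.Opens} (h : V ≤ U) (h' : W ≤ V) (x : Γ(T, U)) :
    rs h' (rs h x) = rs (h'.trans h) x := by
  show (T.presheaf.map (homOfLE h').op).hom ((T.presheaf.map (homOfLE h).op).hom x) = _
  rw [← CommRingCat.comp_apply, ← Functor.map_comp]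
  rfl

theorem sec_rs_refl {T : Scheme.{u}} {U : T.Opens} (x : Γ(T, U)) : rs (le_refl U) x = x := by
  show (T.presheaf.map (homOfLE (le_refl U)).op).hom x = x
  have : (homOfLE (le_refl U)).op = 𝟙 (op U) := rfl
  rw [this, CategoryTheory.Functor.map_id]
  rfl

theorem rs_toSec {W W' : (Sp S).Opens} (h : W' ≤ W) (s : S) : rs h (toSec S W s) = toSec S W' s :=
  sec_rs_rs _ _ _

/-- naturality of `toSec` -/
theorem pb_toSec {S' : Type u} [CommRing S'] (φ : S →+* S') (W : (Sp S).Opens) (W' : (Sp S').Opens)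
    (h : W' ≤ Spec.map (CommRingCat.ofHom φ) ⁻¹ᵁ W) (s : S) :
    pb (Spec.map (CommRingCat.ofHom φ)) W W' h (toSec S W s) = toSec S' W' (φ s) := by
  have key : (Scheme.ΓSpecIso (CommRingCat.of S)).inv ≫
      (Sp S).presheaf.map (homOfLE (le_top : W ≤ ⊤)).op ≫
        (Spec.map (CommRingCat.ofHom φ)).appLE W W' h =
      CommRingCat.ofHom φ ≫ (Scheme.ΓSpecIso (CommRingCat.of S')).inv ≫
        (Sp S').presheaf.map (homOfLE (le_top : W' ≤ ⊤)).op := by
    rw [Scheme.Hom.map_appLE, Scheme.ΓSpecIso_inv_naturality_assoc]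
    rfl
  exact congrArg (fun f => f.hom s) key

theorem toSec_top_bijective : Function.Bijective (toSec S ⊤) := by
  have h1 : ⇑(toSec S ⊤) = ⇑(Scheme.ΓSpecIso (CommRingCat.of S)).inv.hom := by
    funext s
    exact sec_rs_refl (T := Sp S) (U := ⊤) ((Scheme.ΓSpecIso (CommRingCat.of S)).inv.hom s)
  rw [h1]
  exact ConcreteCategory.bijective_of_isIso (Scheme.ΓSpecIso (CommRingCat.of S)).inv

/-- **sheaf property, uniqueness** -/
theorem toSec_ext {ι : Type*} (W : ι → (Sp S).Opens) (hW : ∀ x : Sp S, ∃ i, x ∈ W i) {s s' : S}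
    (h : ∀ i, toSec S (W i) s = toSec S (W i) s') : s = s' := by
  apply toSec_top_bijective.1
  refine TopCat.Sheaf.eq_of_locally_eq' (Sp S).sheaf W ⊤ (fun i => homOfLE le_top) ?_ _ _ ?_
  · intro x _
    obtain ⟨i, hi⟩ := hW x
    exact TopologicalSpace.Opens.mem_iSup.2 ⟨i, hi⟩
  · intro i
    have h1 := rs_toSec (le_top : W i ≤ ⊤) s
    have h2 := rs_toSec (le_top : W i ≤ ⊤) s'
    exact h1.trans ((h i).trans h2.symm)

/-- **sheaf property, existence** -/
theorem exists_toSec_eq {ι : Type*} (W : ι → (Sp S).Opens) (hW : ∀ x : Sp S, ∃ i, x ∈ W i)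
    (a : ∀ i, Γ(Sp S, W i))
    (h : ∀ i j, rs (inf_le_left : W i ⊓ W j ≤ W i) (a i) = rs (inf_le_right : W i ⊓ W j ≤ W j) (a j)) :
    ∃ s : S, ∀ i, toSec S (W i) s = a i := by
  obtain ⟨g, hg, -⟩ := TopCat.Sheaf.existsUnique_gluing' (Sp S).sheaf W ⊤
    (fun i => homOfLE le_top) (by
      intro x _
      obtain ⟨i, hi⟩ := hW x
      exact TopologicalSpace.Opens.mem_iSup.2 ⟨i, hi⟩) a (fun i j => h i j)
  obtain ⟨s, rfl⟩ := toSec_top_bijective.2 g
  exact ⟨s, fun i => (rs_toSec (le_top : W i ≤ ⊤) s).symm.trans (hg i)⟩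

end spec

end Fermat.Agent.S26
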