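/-
S26 / Sch / LB / Defs : line bundles on a scheme `X` given by a cocycle, and their pull backs to affine
schemes, as modules.

`c : Coc U`   : `U : Fin n → X.Opens`, sections `g i j ∈ Γ(X, U i ⊓ U j)`, `g i i = 1`,
                `g i j * g j k = g i k` on `U i ⊓ U j ⊓ U k`.
`c.M u`       : for `u : Spec S ⟶ X` the `S`-module `{(m i) ∈ ∏ Γ(Spec S, u⁻¹ U i) | m i = u^*(g i j) * m j}`.
`c.symm`      : the inverse cocycle.
`c.bc`        : base change maps.
`c.mu`        : the pairing `c.symm.M u × c.M u → S`, `(n, m) ↦ glue (n i * m i)` (file `LB/Pair.lean`).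
-/
import Fermat.Agent.S26.Sch.LB.Sec

set_option autoImplicit false

open CategoryTheory AlgebraicGeometry Opposite

universe u

namespace Fermat.Agent.S26

/-! ### calculus of `rs` and `pb` -/

theorem defs_rs_pb {T X : Scheme.{u}} (u : T ⟶ X) (U : X.Opens) {V V' : T.Opens}
    (h : V ≤ u ⁻¹ᵁ U) (h' : V' ≤ V) (x : Γ(X, U)) :
    rs h' (pb u U V h x) = pb u U V' (h'.trans h) x :=
  congrArg (fun f => f.hom x) (Scheme.Hom.appLE_map u h (homOfLE h').op)

theorem defs_pb_rs {T X : Scheme.{u}} (u : T ⟶ X) {U U' : X.Opens} (V : T.Opens) (h' : U' ≤ U)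
    (h : V ≤ u ⁻¹ᵁ U') (x : Γ(X, U)) :
    pb u U' V h (rs h' x) = pb u U V (h.trans (pre_mono u h')) x :=
  congrArg (fun f => f.hom x) (Scheme.Hom.map_appLE u h (homOfLE h').op)

theorem defs_pb_pb {T' T X : Scheme.{u}} (v : T' ⟶ T) (u : T ⟶ X) (U : X.Opens) (V : T.Opens)
    (W : T'.Opens) (h : V ≤ u ⁻¹ᵁ U) (h' : W ≤ v ⁻¹ᵁ V) (x : Γ(X, U)) :
    pb v V W h' (pb u U V h x) = pb (v ≫ u) U W (h'.trans (pre_mono v h)) x :=
  congrArg (fun f => f.hom x) (Scheme.Hom.appLE_comp_appLE v u U V W h h')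

theorem defs_pb_congr {T X : Scheme.{u}} {v v' : T ⟶ X} (hv : v = v') (U : X.Opens) (V : T.Opens)
    (h : V ≤ v ⁻¹ᵁ U) (x : Γ(X, U)) : pb v U V h x = pb v' U V (hv ▸ h) x := by
  subst hv; rfl

theorem defs_pb_id {T : Scheme.{u}} (U V : T.Opens) (h : V ≤ (𝟙 T : T ⟶ T) ⁻¹ᵁ U) (x : Γ(T, U)) :
    pb (𝟙 T) U V h x = rs (show V ≤ U from h) x := by
  have key : (𝟙 T : T ⟶ T).appLE U V h = T.presheaf.map (homOfLE (show V ≤ U from h)).op := by
    rw [Scheme.Hom.appLE, Scheme.Hom.id_app]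
    exact Category.id_comp _
  exact congrArg (fun f => f.hom x) key

/-- a cocycle on `X` for the family of opens `U` -/
structure Coc {X : Scheme.{u}} {n : ℕ} (U : Fin n → X.Opens) where
  g : ∀ i j, Γ(X, U i ⊓ U j)
  g_self : ∀ i, g i i = 1
  coc : ∀ i j k, rs (U := U i ⊓ U j) (V := U i ⊓ U j ⊓ U k) inf_le_left (g i j) *
      rs (U := U j ⊓ U k) (V := U i ⊓ U j ⊓ U k) (le_inf (inf_le_left.trans inf_le_right) inf_le_right)
        (g j k) =
      rs (U := U i ⊓ U k) (V := U i ⊓ U j ⊓ U k) (le_inf (inf_le_left.trans inf_le_left) inf_le_right)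
        (g i k)

namespace Coc

variable {X : Scheme.{u}} {n : ℕ} {U : Fin n → X.Opens} (c : Coc U)

/-- the inverse cocycle -/
noncomputable def symm : Coc U where
  g i j := rs (le_of_eq (inf_comm _ _)) (c.g j i)
  g_self i := by
    rw [c.g_self, map_one]
  coc i j k := by
    have h := congrArg (rs (show U i ⊓ U j ⊓ U k ≤ U k ⊓ U j ⊓ U i from
      le_inf (le_inf inf_le_right (inf_le_left.trans inf_le_right))
        (inf_le_left.trans inf_le_left))) (c.coc k j i)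
    rw [map_mul] at h
    simp only [sec_rs_rs] at h ⊢
    rw [mul_comm]
    exact h

/-- `g i j * g j i = 1` -/
theorem g_mul_symm (i j : Fin n) : c.g i j * c.symm.g i j = 1 := by
  have h := congrArg (rs (show U i ⊓ U j ≤ U i ⊓ U j ⊓ U i from le_inf le_rfl inf_le_left))
    (c.coc i j i)
  rw [map_mul, c.g_self, map_one, map_one] at h
  simp only [sec_rs_rs] at h
  rw [sec_rs_refl] at h
  exact h

variable {S : Type u} [CommRing S] (u : Sp S ⟶ X)

/-- the module of sections of the pull back of the line bundle to `Spec S` -/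
noncomputable def M : Submodule S (∀ i, Γ(Sp S, u ⁻¹ᵁ U i)) where
  carrier := {m | ∀ i j, rs (pre_mono u (inf_le_left : U i ⊓ U j ≤ U i)) (m i) =
    pb u (U i ⊓ U j) (u ⁻¹ᵁ (U i ⊓ U j)) le_rfl (c.g i j) *
      rs (pre_mono u (inf_le_right : U i ⊓ U j ≤ U j)) (m j)}
  add_mem' := by
    intro a b ha hb i j
    rw [Pi.add_apply, Pi.add_apply, map_add, map_add, ha i j, hb i j, mul_add]
  zero_mem' := by
    intro i j
    rw [Pi.zero_apply, Pi.zero_apply, map_zero, map_zero, mul_zero]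
  smul_mem' := by
    intro s a ha i j
    rw [Pi.smul_apply, Pi.smul_apply, smul_sec_def, smul_sec_def, map_mul, map_mul, rs_toSec,
      rs_toSec, ha i j, mul_left_comm]

theorem mem_M (m : ∀ i, Γ(Sp S, u ⁻¹ᵁ U i)) : m ∈ c.M u ↔
    ∀ i j, rs (pre_mono u (inf_le_left : U i ⊓ U j ≤ U i)) (m i) =
    pb u (U i ⊓ U j) (u ⁻¹ᵁ (U i ⊓ U j)) le_rfl (c.g i j) *
      rs (pre_mono u (inf_le_right : U i ⊓ U j ≤ U j)) (m j) := Iff.rfl

variable {S' : Type u} [CommRing S'] (φ : S →+* S') {u} {u' : Sp S' ⟶ X}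

theorem le_of_comp_eq (h : Spec.map (CommRingCat.ofHom φ) ≫ u = u') (U : X.Opens) :
    u' ⁻¹ᵁ U ≤ Spec.map (CommRingCat.ofHom φ) ⁻¹ᵁ (u ⁻¹ᵁ U) := by
  subst h; exact le_rfl

/-- base change -/
noncomputable def bc (h : Spec.map (CommRingCat.ofHom φ) ≫ u = u') : c.M u →ₛₗ[φ] c.M u' where
  toFun m := ⟨fun i => pb (Spec.map (CommRingCat.ofHom φ)) (u ⁻¹ᵁ U i) (u' ⁻¹ᵁ U i)
    (le_of_comp_eq φ h _) (m.1 i), by
      subst h
      intro i j
      have h1 := congrArg (pb (Spec.map (CommRingCat.ofHom φ)) (u ⁻¹ᵁ (U i ⊓ U j))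
        ((Spec.map (CommRingCat.ofHom φ) ≫ u) ⁻¹ᵁ (U i ⊓ U j)) (le_of_comp_eq φ rfl _)) (m.2 i j)
      rw [map_mul, defs_pb_rs, defs_pb_rs, defs_pb_pb] at h1
      beta_reduce
      rw [defs_rs_pb, defs_rs_pb]
      exact h1⟩
  map_add' m m' := by
    apply Subtype.ext
    funext i
    exact map_add _ _ _
  map_smul' s m := by
    apply Subtype.ext
    funext i
    show pb (Spec.map (CommRingCat.ofHom φ)) (u ⁻¹ᵁ U i) (u' ⁻¹ᵁ U i) (le_of_comp_eq φ h _)
      (s • m.1 i) = φ s • pb (Spec.map (CommRingCat.ofHom φ)) (u ⁻¹ᵁ U i) (u' ⁻¹ᵁ U i)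
        (le_of_comp_eq φ h _) (m.1 i)
    rw [smul_sec_def, smul_sec_def, map_mul, pb_toSec]

theorem bc_apply (h : Spec.map (CommRingCat.ofHom φ) ≫ u = u') (m : c.M u) (i : Fin n) :
    (c.bc φ h m).1 i = pb (Spec.map (CommRingCat.ofHom φ)) (u ⁻¹ᵁ U i) (u' ⁻¹ᵁ U i)
      (le_of_comp_eq φ h _) (m.1 i) := rfl

theorem bc_id (h : Spec.map (CommRingCat.ofHom (RingHom.id S)) ≫ u = u) (m : c.M u) :
    c.bc (RingHom.id S) h m = m := by
  apply Subtype.ext
  funext i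
  rw [bc_apply]
  have hid : Spec.map (CommRingCat.ofHom (RingHom.id S)) = 𝟙 (Sp S) := by
    rw [CommRingCat.ofHom_id, Spec.map_id]
  rw [defs_pb_congr hid, defs_pb_id]
  exact sec_rs_refl _

theorem bc_comp {S'' : Type u} [CommRing S''] (ψ : S' →+* S'') {u'' : Sp S'' ⟶ X}
    (h : Spec.map (CommRingCat.ofHom φ) ≫ u = u') (h' : Spec.map (CommRingCat.ofHom ψ) ≫ u' = u'')
    (h'' : Spec.map (CommRingCat.ofHom (ψ.comp φ)) ≫ u = u'') (m : c.M u) :
    c.bc ψ h' (c.bc φ h m) = c.bc (ψ.comp φ) h'' m := by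
  apply Subtype.ext
  funext i
  rw [bc_apply, bc_apply, bc_apply, defs_pb_pb]
  have hcomp : Spec.map (CommRingCat.ofHom ψ) ≫ Spec.map (CommRingCat.ofHom φ)
      = Spec.map (CommRingCat.ofHom (ψ.comp φ)) := by
    rw [CommRingCat.ofHom_comp, Spec.map_comp]
  rw [defs_pb_congr hcomp]

end Coc

end Fermat.Agent.S26
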