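/-
S26 / Sch / LB / Pair : the pairing `c.symm.M u × c.M u → S`.
-/
import Fermat.Agent.S26.Sch.LB.Defs

set_option autoImplicit false

open CategoryTheory AlgebraicGeometry Opposite

universe u

namespace Fermat.Agent.S26

theorem pair_rs_pb {T X : Scheme.{u}} (u : T ⟶ X) (U : X.Opens) {V V' : T.Opens}
    (e : V ≤ u ⁻¹ᵁ U) (h : V' ≤ V) (x : Γ(X, U)) :
    rs h (pb u U V e x) = pb u U V' (h.trans e) x :=
  congrArg (fun f => f.hom x) (u.appLE_map e (homOfLE h).op)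

theorem pair_pb_rs {T X : Scheme.{u}} (u : T ⟶ X) {U U' : X.Opens} (V : T.Opens)
    (e : V ≤ u ⁻¹ᵁ U) (h : U ≤ U') (x : Γ(X, U')) :
    pb u U V e (rs h x) = pb u U' V (e.trans (pre_mono u h)) x :=
  congrArg (fun f => f.hom x) (u.map_appLE e (homOfLE h).op)

theorem pair_pb_pb {T T' X : Scheme.{u}} (f : T' ⟶ T) (u : T ⟶ X) (U : X.Opens) (V : T.Opens)
    (W : T'.Opens) (e₁ : V ≤ u ⁻¹ᵁ U) (e₂ : W ≤ f ⁻¹ᵁ V) (x : Γ(X, U)) :
    pb f V W e₂ (pb u U V e₁ x) = pb (f ≫ u) U W (e₂.trans (pre_mono f e₁)) x :=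
  congrArg (fun f => f.hom x) (Scheme.Hom.appLE_comp_appLE f u U V W e₁ e₂)

namespace Coc

variable {X : Scheme.{u}} {n : ℕ} {U : Fin n → X.Opens} (c : Coc U) (hU : ∀ x : X, ∃ i, x ∈ U i)
  {S : Type u} [CommRing S] (u : Sp S ⟶ X)

include hU in
/-- PROOF: `exists_toSec_eq` for `W i = u ⁻¹ᵁ U i` and `a i = n i * m i`.  On `W i ⊓ W j = u ⁻¹ᵁ (U i ⊓ U j)`:
`n i * m i = (u^* (symm.g i j) * n j) * (u^* (g i j) * m j) = n j * m j` by `g_mul_symm`. -/
theorem exists_mu (n' : c.symm.M u) (m : c.M u) :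
    ∃ s : S, ∀ i, toSec S (u ⁻¹ᵁ U i) s = n'.1 i * m.1 i := by
  refine exists_toSec_eq (fun i => u ⁻¹ᵁ U i) (fun x => hU (u.base x))
    (fun i => n'.1 i * m.1 i) ?_
  intro i j
  have h1 := n'.2 i j
  have h2 := m.2 i j
  have h3 : pb u (U i ⊓ U j) (u ⁻¹ᵁ (U i ⊓ U j)) le_rfl (c.g i j) *
      pb u (U i ⊓ U j) (u ⁻¹ᵁ (U i ⊓ U j)) le_rfl (c.symm.g i j) = 1 := by
    rw [← map_mul, c.g_mul_symm, map_one]
  show rs (pre_mono u (inf_le_left : U i ⊓ U j ≤ U i)) (n'.1 i * m.1 i)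
    = rs (pre_mono u (inf_le_right : U i ⊓ U j ≤ U j)) (n'.1 j * m.1 j)
  rw [map_mul, map_mul, h1, h2]
  linear_combination (rs (pre_mono u (inf_le_right : U i ⊓ U j ≤ U j)) (n'.1 j) *
    rs (pre_mono u (inf_le_right : U i ⊓ U j ≤ U j)) (m.1 j)) * h3

/-- the value of the pairing -/
noncomputable def muVal (n' : c.symm.M u) (m : c.M u) : S := (c.exists_mu hU u n' m).choose

theorem toSec_muVal (n' : c.symm.M u) (m : c.M u) (i : Fin n) :
    toSec S (u ⁻¹ᵁ U i) (c.muVal hU u n' m) = n'.1 i * m.1 i :=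
  (c.exists_mu hU u n' m).choose_spec i

include hU in
/-- two elements of `S` which agree on all `u ⁻¹ᵁ U i` are equal (`toSec_ext`) -/
theorem ext_of_toSec {s s' : S} (h : ∀ i, toSec S (u ⁻¹ᵁ U i) s = toSec S (u ⁻¹ᵁ U i) s') : s = s' :=
  toSec_ext (fun i => u ⁻¹ᵁ U i) (fun x => hU (u.base x)) h

/-- the pairing (bilinearity: `ext_of_toSec`, `toSec_muVal`, `smul_sec_def`) -/
noncomputable def mu : c.symm.M u →ₗ[S] c.M u →ₗ[S] S :=
  LinearMap.mk₂ S (c.muVal hU u)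
    (by
      intro n₁ n₂ m
      apply ext_of_toSec hU u
      intro i
      rw [map_add, toSec_muVal, toSec_muVal, toSec_muVal]
      show (n₁.1 i + n₂.1 i) * m.1 i = _
      ring)
    (by
      intro s n₁ m
      apply ext_of_toSec hU u
      intro i
      rw [smul_eq_mul, map_mul, toSec_muVal, toSec_muVal]
      show (toSec S _ s * n₁.1 i) * m.1 i = _
      ring)
    (by
      intro n₁ m₁ m₂
      apply ext_of_toSec hU u
      intro i
      rw [map_add, toSec_muVal, toSec_muVal, toSec_muVal]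
      show n₁.1 i * (m₁.1 i + m₂.1 i) = _
      ring)
    (by
      intro s n₁ m
      apply ext_of_toSec hU u
      intro i
      rw [smul_eq_mul, map_mul, toSec_muVal, toSec_muVal]
      show n₁.1 i * (toSec S _ s * m.1 i) = _
      ring)

theorem toSec_mu (n' : c.symm.M u) (m : c.M u) (i : Fin n) :
    toSec S (u ⁻¹ᵁ U i) (c.mu hU u n' m) = n'.1 i * m.1 i := c.toSec_muVal hU u n' m i

/-- componentwise: `(n i * m i) * n' i = (n' i * m i) * n i` -/
theorem mu_smul_left (n₁ n₂ : c.symm.M u) (m : c.M u) :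
    c.mu hU u n₁ m • n₂ = c.mu hU u n₂ m • n₁ := by
  apply Subtype.ext
  funext i
  show toSec S _ (c.mu hU u n₁ m) * n₂.1 i = toSec S _ (c.mu hU u n₂ m) * n₁.1 i
  rw [toSec_mu, toSec_mu]
  ring

theorem mu_smul_right (n' : c.symm.M u) (m₁ m₂ : c.M u) :
    c.mu hU u n' m₁ • m₂ = c.mu hU u n' m₂ • m₁ := by
  apply Subtype.ext
  funext i
  show toSec S _ (c.mu hU u n' m₁) * m₂.1 i = toSec S _ (c.mu hU u n' m₂) * m₁.1 i
  rw [toSec_mu, toSec_mu]
  ring

/-- compatibility with base change (`ext_of_toSec`, `pb_toSec`, `bc_apply`) -/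
theorem mu_bc {S' : Type u} [CommRing S'] (φ : S →+* S') {u' : Sp S' ⟶ X}
    (h : Spec.map (CommRingCat.ofHom φ) ≫ u = u') (n' : c.symm.M u) (m : c.M u) :
    c.mu hU u' (c.symm.bc φ h n') (c.bc φ h m) = φ (c.mu hU u n' m) := by
  apply ext_of_toSec hU u'
  intro i
  rw [toSec_mu, bc_apply, bc_apply, ← map_mul, ← c.toSec_mu hU u, pb_toSec]

/-! ### global sections of the line bundle on `X` and their pull backs -/

/-- a global section of the line bundle defined by `c` -/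
def IsSec (a : ∀ i, Γ(X, U i)) : Prop :=
  ∀ i j, rs (inf_le_left : U i ⊓ U j ≤ U i) (a i) = c.g i j * rs (inf_le_right : U i ⊓ U j ≤ U j) (a j)

/-- the pull back of a global section -/
noncomputable def pullSec {a : ∀ i, Γ(X, U i)} (ha : c.IsSec a) : c.M u :=
  ⟨fun i => pb u (U i) (u ⁻¹ᵁ U i) le_rfl (a i), by
    rw [mem_M]
    intro i j
    rw [pair_rs_pb, pair_rs_pb,
      ← pair_pb_rs u (u ⁻¹ᵁ (U i ⊓ U j)) le_rfl (inf_le_left : U i ⊓ U j ≤ U i) (a i),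
      ← pair_pb_rs u (u ⁻¹ᵁ (U i ⊓ U j)) le_rfl (inf_le_right : U i ⊓ U j ≤ U j) (a j),
      ha i j, map_mul]⟩

theorem pullSec_apply {a : ∀ i, Γ(X, U i)} (ha : c.IsSec a) (i : Fin n) :
    (c.pullSec u ha).1 i = pb u (U i) (u ⁻¹ᵁ U i) le_rfl (a i) := rfl

theorem bc_pullSec {S' : Type u} [CommRing S'] (φ : S →+* S') {u' : Sp S' ⟶ X}
    (h : Spec.map (CommRingCat.ofHom φ) ≫ u = u') {a : ∀ i, Γ(X, U i)} (ha : c.IsSec a) :
    c.bc φ h (c.pullSec u ha) = c.pullSec u' ha := by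
  subst h
  apply Subtype.ext
  funext i
  rw [bc_apply, pullSec_apply, pullSec_apply, pair_pb_pb]

end Coc

end Fermat.Agent.S26
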