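/-
S26 / Sch / LB / Loc : localisation of sections of the structure sheaf of `Spec S` at `s` (qcqs lemma);
quasi-compactness of preimages of affine opens.
-/
import Fermat.Agent.S26.Sch.LB.Sec

set_option autoImplicit false

open CategoryTheory AlgebraicGeometry Opposite

universe u

namespace Fermat.Agent.S26

/-- restriction is transitive -/
theorem rs_rs_loc {T : Scheme.{u}} {U V W : T.Opens} (h : V ≤ U) (h' : W ≤ V) (x : Γ(T, U)) :
    rs h' (rs h x) = rs (h'.trans h) x := by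
  have := T.presheaf.map_comp (homOfLE h).op (homOfLE h').op
  have h2 : (T.presheaf.map ((homOfLE h).op ≫ (homOfLE h').op)).hom x
      = (T.presheaf.map (homOfLE h').op).hom ((T.presheaf.map (homOfLE h).op).hom x) := by
    rw [this]; rfl
  exact h2.symm

/-- restriction to the same open is the identity -/
theorem rs_self_loc {T : Scheme.{u}} {U : T.Opens} (h : U ≤ U) (x : Γ(T, U)) : rs h x = x := by
  have := T.presheaf.map_id (op U)
  have h2 : (T.presheaf.map (𝟙 (op U))).hom x = x := by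
    rw [this]; rfl
  exact h2

section spec

variable {S : Type u} [CommRing S]

/-- the basic open `D(s)` of `Spec S` -/
noncomputable abbrev Ds (s : S) : (Sp S).Opens := PrimeSpectrum.basicOpen s

/-- `D(s)` as a basic open set of the scheme, relative to an open `W`
(`Scheme.basicOpen_res`, `basicOpen_eq_of_affine`) -/
theorem basicOpen_toSec (W : (Sp S).Opens) (s : S) : (Sp S).basicOpen (toSec S W s) = W ⊓ Ds s := by
  have h1 : (Sp S).basicOpen ((Scheme.ΓSpecIso (CommRingCat.of S)).inv s) = Ds s :=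
    basicOpen_eq_of_affine (R := CommRingCat.of S) s
  rw [← h1]
  exact Scheme.basicOpen_res _ _ _

/-- restriction is `S`-linear -/
theorem rs_smul_loc {W W' : (Sp S).Opens} (h : W' ≤ W) (s : S) (x : Γ(Sp S, W)) :
    rs h (s • x) = s • rs h x := by
  rw [smul_sec_def, smul_sec_def, map_mul, rs_toSec]

theorem exists_pow_mul_eq_zero_loc {T : Scheme.{u}} {W V : T.Opens} (hW : IsCompact (W : Set T))
    (f : Γ(T, W)) (hV : V = T.basicOpen f) (hVW : V ≤ W) (x : Γ(T, W)) (hx : rs hVW x = 0) :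
    ∃ N : ℕ, f ^ N * x = 0 := by
  subst hV
  exact exists_pow_mul_eq_zero_of_res_basicOpen_eq_zero_of_isCompact T hW x f hx

theorem exists_eq_pow_mul_loc {T : Scheme.{u}} {W V : T.Opens} (hW : IsCompact (W : Set T))
    (hW' : IsQuasiSeparated (W : Set T))
    (f : Γ(T, W)) (hV : V = T.basicOpen f) (hVW : V ≤ W) (x : Γ(T, V)) :
    ∃ (N : ℕ) (y : Γ(T, W)), rs hVW y = (rs hVW f) ^ N * x := by
  subst hV
  exact exists_eq_pow_mul_of_isCompact_of_isQuasiSeparated T W hW hW' f x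

/-- `Γ(W)_s → Γ(W ∩ D(s))` is injective (`exists_pow_mul_eq_zero_of_res_basicOpen_eq_zero_of_isCompact`) -/
theorem exists_pow_smul_eq_zero {W : (Sp S).Opens} (hW : IsCompact (W : Set (Sp S))) (s : S)
    (x : Γ(Sp S, W)) (hx : rs (inf_le_left : W ⊓ Ds s ≤ W) x = 0) : ∃ N : ℕ, s ^ N • x = 0 := by
  obtain ⟨N, hN⟩ := exists_pow_mul_eq_zero_loc hW (toSec S W s) (basicOpen_toSec W s).symm
    inf_le_left x hx
  exact ⟨N, by rw [smul_sec_def, map_pow, hN]⟩

/-- `Γ(W)_s → Γ(W ∩ D(s))` is surjective (`exists_eq_pow_mul_of_isCompact_of_isQuasiSeparated`; every subset of an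
affine scheme is quasi-separated: grep `IsQuasiSeparated` in `Morphisms/QuasiSeparated.lean`,
`IsAffineOpen.isQuasiSeparated`, `IsQuasiSeparated.of_subset`) -/
theorem exists_pow_smul_eq_rs {W : (Sp S).Opens} (hW : IsCompact (W : Set (Sp S))) (s : S)
    (x : Γ(Sp S, W ⊓ Ds s)) : ∃ (N : ℕ) (y : Γ(Sp S, W)), rs inf_le_left y = s ^ N • x := by
  have hqs : IsQuasiSeparated (W : Set (Sp S)) :=
    (isAffineOpen_top (Sp S)).isQuasiSeparated.of_subset (Set.subset_univ _)
  obtain ⟨N, y, hN⟩ := exists_eq_pow_mul_loc hW hqs (toSec S W s) (basicOpen_toSec W s).symm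
    inf_le_left x
  exact ⟨N, y, by rw [hN, smul_sec_def, map_pow, rs_toSec]⟩

/-- the case `W = ⊤` -/
theorem exists_pow_mul_eq_of_toSec_eq (s a b : S) (h : toSec S (Ds s) a = toSec S (Ds s) b) :
    ∃ N : ℕ, s ^ N * a = s ^ N * b := by
  have hc : IsCompact ((⊤ : (Sp S).Opens) : Set (Sp S)) := isCompact_univ
  have hx : rs (inf_le_left : (⊤ : (Sp S).Opens) ⊓ Ds s ≤ ⊤) (toSec S ⊤ (a - b)) = 0 := by
    rw [rs_toSec, ← rs_toSec (inf_le_right : (⊤ : (Sp S).Opens) ⊓ Ds s ≤ Ds s), map_sub, h, sub_self,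
      map_zero]
  obtain ⟨N, hN⟩ := exists_pow_smul_eq_zero hc s _ hx
  refine ⟨N, ?_⟩
  rw [smul_sec_def, ← map_mul] at hN
  have := toSec_top_bijective.1 (hN.trans (map_zero _).symm)
  rw [mul_sub] at this
  exact sub_eq_zero.1 this

theorem exists_toSec_eq_pow_smul (s : S) (x : Γ(Sp S, Ds s)) :
    ∃ (N : ℕ) (a : S), toSec S (Ds s) a = s ^ N • x := by
  have hc : IsCompact ((⊤ : (Sp S).Opens) : Set (Sp S)) := isCompact_univ
  obtain ⟨N, y, hN⟩ := exists_pow_smul_eq_rs hc s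
    (rs (inf_le_right : (⊤ : (Sp S).Opens) ⊓ Ds s ≤ Ds s) x)
  obtain ⟨a, rfl⟩ := toSec_top_bijective.2 y
  refine ⟨N, a, ?_⟩
  have h2 := congrArg (rs (le_inf le_top le_rfl : Ds s ≤ (⊤ : (Sp S).Opens) ⊓ Ds s)) hN
  rw [rs_toSec, rs_toSec, rs_smul_loc, rs_rs_loc, rs_self_loc] at h2
  exact h2

/-- `s` is invertible on `D(s)` -/
theorem isUnit_toSec_of_le {W : (Sp S).Opens} (s : S) (hW : W ≤ Ds s) : IsUnit (toSec S W s) := by
  have h1 : IsUnit (rs ((Sp S).basicOpen_le (toSec S ⊤ s)) (toSec S ⊤ s)) :=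
    RingedSpace.isUnit_res_basicOpen _ (toSec S ⊤ s)
  have h2 : W ≤ (Sp S).basicOpen (toSec S ⊤ s) := by
    rw [basicOpen_toSec]; exact le_inf le_top hW
  have h3 := h1.map (rs h2)
  rwa [rs_toSec, rs_toSec] at h3

end spec

/-- quasi-compactness: `u` is an affine morphism (`IsAffineHom.of_comp` with `f`), `IsAffineOpen.preimage`,
`IsAffineOpen.isCompact` -/
theorem isCompact_preimage_of_isSeparated {X Y : Scheme.{u}} (f : X ⟶ Y) [IsSeparated f] [IsAffine Y]
    {S : Type u} [CommRing S] (u : Sp S ⟶ X) {U : X.Opens} (hU : IsAffineOpen U) :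
    IsCompact (u ⁻¹ᵁ U : Set (Sp S)) := by
  have : IsAffineHom (u ≫ f) := inferInstance
  have : IsAffineHom u := IsAffineHom.of_comp u f
  exact (hU.preimage u).isCompact

/-- the intersection of two affine opens of `Spec S` is affine (`IsAffineOpen.inf`) hence compact -/
theorem isCompact_preimage_inf_of_isSeparated {X Y : Scheme.{u}} (f : X ⟶ Y) [IsSeparated f]
    [IsAffine Y] {S : Type u} [CommRing S] (u : Sp S ⟶ X) {U V : X.Opens} (hU : IsAffineOpen U)
    (hV : IsAffineOpen V) : IsCompact (u ⁻¹ᵁ (U ⊓ V) : Set (Sp S)) := by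
  have : IsAffineHom (u ≫ f) := inferInstance
  have : IsAffineHom u := IsAffineHom.of_comp u f
  have h := ((hU.preimage u).inf (hV.preimage u)).isCompact
  exact h

end Fermat.Agent.S26
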