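/-
S26 / Sch / LB / Ext : extension of sections (the only place where quasi-compactness is used); the values of the
pairing generate the unit ideal.
-/
import Fermat.Agent.S26.Sch.LB.Pair
import Fermat.Agent.S26.Sch.LB.Loc

set_option autoImplicit false

open CategoryTheory AlgebraicGeometry Opposite

universe u

namespace Fermat.Agent.S26

theorem ext_rs_rs {T : Scheme.{u}} {U V W : T.Opens} (h : V ≤ U) (h' : W ≤ V) (x : Γ(T, U)) :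
    rs h' (rs h x) = rs (h'.trans h) x := by
  have := T.presheaf.map_comp (homOfLE h).op (homOfLE h').op
  have h2 := congrArg (fun f => f.hom x) this
  exact h2.symm

theorem ext_rs_pb {T X : Scheme.{u}} (u : T ⟶ X) (U : X.Opens) {V V' : T.Opens} (h : V ≤ u ⁻¹ᵁ U)
    (h' : V' ≤ V) (x : Γ(X, U)) : rs h' (pb u U V h x) = pb u U V' (h'.trans h) x := by
  have := u.appLE_map h (homOfLE h').op
  exact congrArg (fun f => f.hom x) this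

theorem ext_pb_rs {T X : Scheme.{u}} (u : T ⟶ X) {U U' : X.Opens} (hU : U' ≤ U) {V : T.Opens}
    (h : V ≤ u ⁻¹ᵁ U') (x : Γ(X, U)) :
    pb u U' V h (rs hU x) = pb u U V (h.trans (pre_mono u hU)) x := by
  have := u.map_appLE h (homOfLE hU).op
  exact congrArg (fun f => f.hom x) this

theorem ext_rs_smul {S : Type u} [CommRing S] {W W' : (Sp S).Opens} (h : W' ≤ W) (s : S)
    (x : Γ(Sp S, W)) : rs h (s • x) = s • rs h x := by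
  rw [smul_sec_def, smul_sec_def, map_mul, rs_toSec]

theorem ext_mul_smul {S : Type u} [CommRing S] {W : (Sp S).Opens} (s : S)
    (x y : Γ(Sp S, W)) : x * (s • y) = s • (x * y) := by
  rw [smul_sec_def, smul_sec_def]; ring

namespace Coc

variable {X : Scheme.{u}} {n : ℕ} {U : Fin n → X.Opens} (c : Coc U) (hU : ∀ x : X, ∃ i, x ∈ U i)
  {S : Type u} [CommRing S] (u : Sp S ⟶ X)

/-- **KL-ext**.  Let `D(s) ⊆ u⁻¹ U k`.  There is `m ∈ M(u)` with `m k = s ^ N` on `D(s)`.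
PROOF.  `W i := u ⁻¹ᵁ U i`.  On `W i ⊓ D(s) ⊆ u ⁻¹ᵁ (U i ⊓ U k)` let `x i := u^*(g i k)` (restricted).  By
`exists_pow_smul_eq_rs` there are `N i`, `y i ∈ Γ(W i)` with `y i = s ^ (N i) • x i` on `W i ⊓ D(s)`; multiplying by powers
of `s` we may assume `N i = N` for all `i` (`N = ∑ N i` or the sup).  `d i j := y i - u^*(g i j) * y j ∈ Γ(u ⁻¹ᵁ (U i ⊓ U j))`
vanishes on `u ⁻¹ᵁ (U i ⊓ U j) ⊓ D(s)` by the cocycle identity (`g i k = g i j * g j k`), so `s ^ (N' i j) • d i j = 0`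
(`exists_pow_smul_eq_zero`, `hqc2`).  With `N'' = ∑ N' i j` put `m i := s ^ N'' • y i`.  `m ∈ M(u)`, and on `D(s)`:
`m k = s ^ (N'' + N) • u^*(g k k) = s ^ (N'' + N)`. -/
theorem exists_ext (hqc : ∀ i, IsCompact (u ⁻¹ᵁ U i : Set (Sp S)))
    (hqc2 : ∀ i j, IsCompact (u ⁻¹ᵁ (U i ⊓ U j) : Set (Sp S))) (k : Fin n) (s : S)
    (hs : Ds s ≤ u ⁻¹ᵁ U k) :
    ∃ (N : ℕ) (m : c.M u), rs hs (m.1 k) = toSec S (Ds s) (s ^ N) := by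
  have hik : ∀ i, u ⁻¹ᵁ U i ⊓ Ds s ≤ u ⁻¹ᵁ (U i ⊓ U k) := fun i x hx => ⟨hx.1, hs hx.2⟩
  -- step 1 : extension of `s ^ N • g i k`
  have h1 : ∀ i, ∃ (N : ℕ) (y : Γ(Sp S, u ⁻¹ᵁ U i)),
      rs (inf_le_left : u ⁻¹ᵁ U i ⊓ Ds s ≤ u ⁻¹ᵁ U i) y =
        s ^ N • pb u (U i ⊓ U k) (u ⁻¹ᵁ U i ⊓ Ds s) (hik i) (c.g i k) :=
    fun i => exists_pow_smul_eq_rs (hqc i) s _
  choose N y hy using h1
  set N₀ := ∑ i, N i with hN₀
  have hN : ∀ i, N i ≤ N₀ := fun i =>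
    Finset.single_le_sum (fun _ _ => Nat.zero_le _) (Finset.mem_univ i)
  obtain ⟨y', hy'⟩ : ∃ y' : ∀ i, Γ(Sp S, u ⁻¹ᵁ U i),
      ∀ i, rs (inf_le_left : u ⁻¹ᵁ U i ⊓ Ds s ≤ u ⁻¹ᵁ U i) (y' i) =
      s ^ N₀ • pb u (U i ⊓ U k) (u ⁻¹ᵁ U i ⊓ Ds s) (hik i) (c.g i k) := by
    refine ⟨fun i => s ^ (N₀ - N i) • y i, fun i => ?_⟩
    rw [ext_rs_smul, hy, smul_smul, ← pow_add, Nat.sub_add_cancel (hN i)]
  -- step 2 : the defect of the cocycle condition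
  obtain ⟨d, hdef⟩ : ∃ d : ∀ i j, Γ(Sp S, u ⁻¹ᵁ (U i ⊓ U j)), ∀ i j, d i j =
    rs (pre_mono u (inf_le_left : U i ⊓ U j ≤ U i)) (y' i) -
      pb u (U i ⊓ U j) (u ⁻¹ᵁ (U i ⊓ U j)) le_rfl (c.g i j) *
        rs (pre_mono u (inf_le_right : U i ⊓ U j ≤ U j)) (y' j) := ⟨_, fun _ _ => rfl⟩
  have hd : ∀ i j,
      rs (inf_le_left : u ⁻¹ᵁ (U i ⊓ U j) ⊓ Ds s ≤ u ⁻¹ᵁ (U i ⊓ U j)) (d i j) = 0 := by
    intro i j
    have hVi : u ⁻¹ᵁ (U i ⊓ U j) ⊓ Ds s ≤ u ⁻¹ᵁ U i ⊓ Ds s := fun x hx => ⟨hx.1.1, hx.2⟩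
    have hVj : u ⁻¹ᵁ (U i ⊓ U j) ⊓ Ds s ≤ u ⁻¹ᵁ U j ⊓ Ds s := fun x hx => ⟨hx.1.2, hx.2⟩
    have hVijk : u ⁻¹ᵁ (U i ⊓ U j) ⊓ Ds s ≤ u ⁻¹ᵁ (U i ⊓ U j ⊓ U k) :=
      fun x hx => ⟨hx.1, hs hx.2⟩
    have e1 : rs (inf_le_left : u ⁻¹ᵁ (U i ⊓ U j) ⊓ Ds s ≤ u ⁻¹ᵁ (U i ⊓ U j))
        (rs (pre_mono u (inf_le_left : U i ⊓ U j ≤ U i)) (y' i)) =
        s ^ N₀ • pb u (U i ⊓ U k) (u ⁻¹ᵁ (U i ⊓ U j) ⊓ Ds s) (hVi.trans (hik i)) (c.g i k) := by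
      have := congrArg (rs hVi) (hy' i)
      rw [ext_rs_rs, ext_rs_smul, ext_rs_pb] at this
      rw [ext_rs_rs]
      exact this
    have e2 : rs (inf_le_left : u ⁻¹ᵁ (U i ⊓ U j) ⊓ Ds s ≤ u ⁻¹ᵁ (U i ⊓ U j))
        (rs (pre_mono u (inf_le_right : U i ⊓ U j ≤ U j)) (y' j)) =
        s ^ N₀ • pb u (U j ⊓ U k) (u ⁻¹ᵁ (U i ⊓ U j) ⊓ Ds s) (hVj.trans (hik j)) (c.g j k) := by
      have := congrArg (rs hVj) (hy' j)
      rw [ext_rs_rs, ext_rs_smul, ext_rs_pb] at this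
      rw [ext_rs_rs]
      exact this
    have e3 := congrArg (pb u (U i ⊓ U j ⊓ U k) (u ⁻¹ᵁ (U i ⊓ U j) ⊓ Ds s) hVijk) (c.coc i j k)
    rw [map_mul, ext_pb_rs, ext_pb_rs, ext_pb_rs] at e3
    rw [hdef, map_sub, map_mul, e1, e2, ext_rs_pb, ext_mul_smul, ← e3, sub_self]
  have h2 : ∀ i j, ∃ N' : ℕ, s ^ N' • d i j = 0 := fun i j =>
    exists_pow_smul_eq_zero (hqc2 i j) s (d i j) (hd i j)
  choose N' hN' using h2
  set N₁ := ∑ i, ∑ j, N' i j with hN₁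
  have hN₁le : ∀ i j, N' i j ≤ N₁ := fun i j =>
    (Finset.single_le_sum (f := fun j => N' i j) (fun _ _ => Nat.zero_le _)
      (Finset.mem_univ j)).trans
    (Finset.single_le_sum (f := fun i => ∑ j, N' i j) (fun _ _ => Nat.zero_le _)
      (Finset.mem_univ i))
  have hd0 : ∀ i j, s ^ N₁ • d i j = 0 := by
    intro i j
    rw [← Nat.sub_add_cancel (hN₁le i j), pow_add, mul_smul, hN', smul_zero]
  refine ⟨N₁ + N₀, ⟨fun i => s ^ N₁ • y' i, ?_⟩, ?_⟩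
  · rw [mem_M]
    intro i j
    have := hd0 i j
    rw [hdef] at this
    rw [ext_rs_smul, ext_rs_smul, ext_mul_smul, ← sub_eq_zero, ← smul_sub]
    exact this
  · show rs hs (s ^ N₁ • y' k) = _
    have hk : Ds s ≤ u ⁻¹ᵁ U k ⊓ Ds s := le_inf hs le_rfl
    have := congrArg (rs hk) (hy' k)
    rw [ext_rs_rs, ext_rs_smul, c.g_self, map_one, map_one] at this
    rw [ext_rs_smul, this, smul_smul, ← pow_add, smul_sec_def, mul_one]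

/-- the values of the pairing generate the unit ideal.
PROOF.  Otherwise they lie in a maximal ideal `𝔭`, a point `x` of `Spec S`.  `u x ∈ U k`; choose `s` with
`x ∈ D(s) ⊆ u ⁻¹ᵁ U k` (`PrimeSpectrum.isBasis_basic_opens`).  `exists_ext` for `c` and for `c.symm`: `m`, `n'`.  By `toSec_mu`,
`rs_toSec`: `toSec (D s) (μ(n', m)) = toSec (D s) (s ^ (N + N'))`, so `s ^ e * μ(n', m) = s ^ (e + N + N')`
(`exists_pow_mul_eq_of_toSec_eq`) lies in `𝔭`, so `s ∈ 𝔭`: contradiction. -/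
theorem span_mu_eq_top (hqc : ∀ i, IsCompact (u ⁻¹ᵁ U i : Set (Sp S)))
    (hqc2 : ∀ i j, IsCompact (u ⁻¹ᵁ (U i ⊓ U j) : Set (Sp S))) :
    Ideal.span {s : S | ∃ n' m, c.mu hU u n' m = s} = ⊤ := by
  by_contra hne
  obtain ⟨𝔭, h𝔭, hle⟩ := Ideal.exists_le_maximal _ hne
  let x : Sp S := (⟨𝔭, h𝔭.isPrime⟩ : PrimeSpectrum S)
  obtain ⟨k, hk⟩ := hU (u.base x)
  have hxW : x ∈ u ⁻¹ᵁ U k := hk
  obtain ⟨_, ⟨s, rfl⟩, hxs, hsW⟩ :=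
    PrimeSpectrum.isTopologicalBasis_basic_opens.exists_subset_of_mem_open hxW
      (u ⁻¹ᵁ U k).isOpen
  have hs : Ds s ≤ u ⁻¹ᵁ U k := hsW
  obtain ⟨N, m, hm⟩ := c.exists_ext u hqc hqc2 k s hs
  obtain ⟨N', n', hn'⟩ := c.symm.exists_ext u hqc hqc2 k s hs
  have h1 := congrArg (rs hs) (c.toSec_mu hU u n' m k)
  rw [rs_toSec, map_mul, hm, hn', ← map_mul] at h1
  obtain ⟨e, he⟩ := exists_pow_mul_eq_of_toSec_eq s _ _ h1
  have hmem : c.mu hU u n' m ∈ 𝔭 := hle (Ideal.subset_span ⟨n', m, rfl⟩)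
  have h2 : s ^ e * (s ^ N' * s ^ N) ∈ 𝔭 := by
    rw [← he]
    exact 𝔭.mul_mem_left _ hmem
  rw [← pow_add, ← pow_add] at h2
  have h3 : s ∈ 𝔭 := h𝔭.isPrime.mem_of_pow_mem _ h2
  exact hxs h3

end Coc

end Fermat.Agent.S26
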