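/-
S26 / Sch / LB / Bun : the line bundle functor `LBun (avf f L hc).toPtF` attached to a cocycle on `A`, and the
canonical map attached to a global section of the inverse bundle.
-/
import Fermat.Agent.S26.Sch.LB.Ext
import Fermat.Agent.S26.Sch.Chart
import Fermat.Agent.S26.Alg.InvPair

set_option autoImplicit false

open CategoryTheory CategoryTheory.Limits AlgebraicGeometry NeronModelInfra GoodReductionJacobian

universe u

namespace Fermat.Agent.S26

variable {K : Type u} [Field K] {A : Scheme.{u}} (f : A ⟶ Spec (CommRingCat.of K))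
  (L : RelativeGroupLaw K f) (hc : L.IsCommutative)

namespace Coc

variable {n : ℕ} {U : Fin n → A.Opens} (c : Coc U) (hU : ∀ x : A, ∃ i, x ∈ U i)
  (hUa : ∀ i, IsAffineOpen (U i)) [IsSeparated f]

include f hUa in
theorem span_mu_eq_top' {S : Type u} [CommRing S] (u : Sp S ⟶ A) :
    Ideal.span {s : S | ∃ n' m, c.mu hU u n' m = s} = ⊤ :=
  c.span_mu_eq_top hU u (fun i => isCompact_preimage_of_isSeparated f u (hUa i))
    (fun i j => isCompact_preimage_inf_of_isSeparated f u (hUa i) (hUa j))

omit [IsSeparated f] in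
theorem comp_of_map_eq {S S' : Type u} [CommRing S] [Algebra K S] [CommRing S'] [Algebra K S']
    (φ : S →ₐ[K] S') {a : (avf f L hc).pt S} {a' : (avf f L hc).pt S'}
    (h : (avf f L hc).map φ a = a') :
    Spec.map (CommRingCat.ofHom φ.toRingHom) ≫ hom a = hom a' := by
  rw [← h]; rfl

/-- the line bundle functor -/
noncomputable def lbun : LBun (avf f L hc).toPtF where
  M a := c.M (hom a)
  inv a := invPair_invertible (c.mu hU (hom a)) (fun n₁ n₂ m => c.mu_smul_left hU (hom a) n₁ n₂ m)
    (fun n' m₁ m₂ => c.mu_smul_right hU (hom a) n' m₁ m₂) (c.span_mu_eq_top' f hU hUa (hom a))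
  bc φ _ _ h := c.bc φ.toRingHom (comp_of_map_eq f L hc φ h)
  bc_span φ a a' h := invPair_span φ.toRingHom (c.mu hU (hom a)) (c.mu hU (hom a'))
    (c.bc φ.toRingHom (comp_of_map_eq f L hc φ h)) (c.symm.bc φ.toRingHom (comp_of_map_eq f L hc φ h))
    (fun n' m => c.mu_bc hU (hom a) φ.toRingHom (comp_of_map_eq f L hc φ h) n' m)
    (fun n' m₁ m₂ => c.mu_smul_right hU (hom a') n' m₁ m₂) (c.span_mu_eq_top' f hU hUa (hom a))
  bc_id _ h m := c.bc_id (comp_of_map_eq f L hc (AlgHom.id K _) h) m
  bc_comp ψ φ _ _ _ h h' h'' m := c.bc_comp φ.toRingHom ψ.toRingHom (comp_of_map_eq f L hc φ h)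
    (comp_of_map_eq f L hc ψ h') (comp_of_map_eq f L hc (ψ.comp φ) h'') m

variable {a : ∀ i, Γ(A, U i)} (ha : c.symm.IsSec a)

/-- the canonical map `M(u) → S` defined by a global section `a` of the inverse bundle -/
noncomputable def can {S : Type u} [CommRing S] [Algebra K S] (u : (avf f L hc).pt S) :
    (c.lbun f L hc hU hUa).M u →ₗ[S] S :=
  c.mu hU (hom u) (c.symm.pullSec (hom u) ha)

theorem can_bc {S S' : Type u} [CommRing S] [Algebra K S] [CommRing S'] [Algebra K S']
    (φ : S →ₐ[K] S') {u : (avf f L hc).pt S} {u' : (avf f L hc).pt S'}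
    (h : (avf f L hc).map φ u = u') (m : (c.lbun f L hc hU hUa).M u) :
    c.can f L hc hU hUa ha u' ((c.lbun f L hc hU hUa).bc φ h m) = φ (c.can f L hc hU hUa ha u m) := by
  have h1 := c.mu_bc hU (hom u) φ.toRingHom (comp_of_map_eq f L hc φ h)
    (c.symm.pullSec (hom u) ha) m
  rw [c.symm.bc_pullSec (hom u) φ.toRingHom (comp_of_map_eq f L hc φ h) ha] at h1
  exact h1

/-- the canonical map, componentwise -/
theorem toSec_can {S : Type u} [CommRing S] [Algebra K S] (u : (avf f L hc).pt S)
    (m : (c.lbun f L hc hU hUa).M u) (i : Fin n) :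
    toSec S (hom u ⁻¹ᵁ U i) (c.can f L hc hU hUa ha u m) =
      pb (hom u) (U i) (hom u ⁻¹ᵁ U i) le_rfl (a i) * (m : c.M (hom u)).1 i :=
  c.toSec_mu hU (hom u) (c.symm.pullSec (hom u) ha) m i

/-- the range of `can` commutes with base change (formal: `bc_span`, `can_bc`) -/
theorem range_can_map {S S' : Type u} [CommRing S] [Algebra K S] [CommRing S'] [Algebra K S']
    (φ : S →ₐ[K] S') {u : (avf f L hc).pt S} {u' : (avf f L hc).pt S'}
    (h : (avf f L hc).map φ u = u') :
    LinearMap.range (c.can f L hc hU hUa ha u') =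
      Ideal.map φ (LinearMap.range (c.can f L hc hU hUa ha u)) := by
  apply le_antisymm
  · rintro _ ⟨m', rfl⟩
    have hm' : m' ∈ Submodule.span S' (Set.range ((c.lbun f L hc hU hUa).bc φ h)) := by
      rw [(c.lbun f L hc hU hUa).bc_span φ h]; exact Submodule.mem_top
    induction hm' using Submodule.span_induction with
    | mem x hx =>
      obtain ⟨m, rfl⟩ := hx
      rw [can_bc]
      exact Ideal.mem_map_of_mem φ ⟨m, rfl⟩
    | zero => rw [map_zero]; exact Ideal.zero_mem _
    | add x y _ _ hx hy => rw [map_add]; exact Ideal.add_mem _ hx hy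
    | smul t x _ hx => rw [map_smul]; exact Ideal.mul_mem_left _ t hx
  · rw [Ideal.map_le_iff_le_comap]
    rintro _ ⟨m, rfl⟩
    exact ⟨(c.lbun f L hc hU hUa).bc φ h m, can_bc f L hc c hU hUa ha φ h m⟩

end Coc

end Fermat.Agent.S26
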